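import Fermat.Agent.S12.M.Main
import Fermat.Agent.S15.T.Key

/-!
# S12 / M / Dual : EXPORT of part M (`dual_of_key` with the S15 machine `S15.T.key` plugged in)
-/

set_option autoImplicit false

open WeierstrassCurve WeierstrassCurve.Affine

namespace Fermat.Agent.S12.M

open Fermat.Agent.ES (Qb GQ)

/-- **The dual of S15.**  `⟨Q⟩` Galois stable of prime order `p ∉ {2,3,5,7,13}`, `Q` in the zero component at the multiplicative primes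
`2` and `3`: then `Q` is in the zero component at every multiplicative prime `l ≠ p`. -/
theorem dual {p : ℕ} (hp : p.Prime) (hp' : p ∉ ({2, 3, 5, 7, 13} : Finset ℕ))
    (W : WeierstrassCurve ℤ) (hΔ : W.Δ ≠ 0) (Q : ((W.map (Int.castRingHom ℚ))⁄Qb).Point)
    (hQst : ∀ σ : GQ, ∃ k : ℕ, σ • Q = k • Q) (hQord : addOrderOf Q = p)
    (h2Δ : (2 : ℤ) ∣ W.Δ) (h2c₄ : ¬ (2 : ℤ) ∣ W.c₄)
    (h2 : ∀ A : ValuationSubring Qb, A.LiesOverPrime 2 → W.InZeroComponentAt A Q)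
    (h3Δ : (3 : ℤ) ∣ W.Δ) (h3c₄ : ¬ (3 : ℤ) ∣ W.c₄)
    (h3 : ∀ A : ValuationSubring Qb, A.LiesOverPrime 3 → W.InZeroComponentAt A Q)
    {l : ℕ} (hl : l.Prime) (hlp : l ≠ p) (hlΔ : (l : ℤ) ∣ W.Δ) (hlc₄ : ¬ (l : ℤ) ∣ W.c₄)
    (A : ValuationSubring Qb) (hA : A.LiesOverPrime l) : W.InZeroComponentAt A Q := by
  haveI : Fact p.Prime := ⟨hp⟩
  exact dual_of_key (Fermat.Agent.S15.T.key (p := p) hp') hp' hΔ Q hQst hQord h2Δ h2c₄ h2 h3Δ h3c₄ h3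
    hl hlp hlΔ hlc₄ A hA

end Fermat.Agent.S12.M
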