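import Fermat.Agent.S12.M.Rat
import Fermat.Agent.S15.A.Main
import Fermat.Agent.S15.C.Unit
import Fermat.Agent.S54.Frobenius

/-!
# S12 / M / Main : the dual of S15 at the level of places

`W/ℤ`, `Q` a point of odd prime order `p ∉ {2,3,5,7,13}` whose subgroup `⟨Q⟩` is stable under `G_ℚ`.  If `W` is multiplicative
at `2` and `3` and `Q` lies in the zero component at all places above `2` and `3`, then `Q` lies in the zero component at every place
above every multiplicative prime `ℓ ≠ p`.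

Proof.  `x` := the place of `FF p` attached to `(E, ⟨Q⟩)` (`A.exists_place`), `h(x) = c ∈ ℚˣ` (`h0_mem_rat`: only the stability of `⟨Q⟩` is needed),
`|c|_A > 1` iff `Q` is in the zero component at `A`, `< 1` otherwise; `x` is Galois fixed because `Q` is in the zero component at `2`.
`y := w • x` (`w` the Fricke involution, it commutes with Galois: `C.gal_wP`), `h(y) = p¹²/c`.  So `y` is in the disc of the cusp `0` at `2` and `3`, and
in the disc of `∞` at a place where `Q` is not in the zero component: `T.key`.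

The S15 machine enters through the hypothesis `Key p` (= the statement of `S15.T.key`, plugged in in `S12/M/Dual.lean`).
-/

set_option autoImplicit false

open WeierstrassCurve WeierstrassCurve.Affine AlgebraicCurve ModularCurve

namespace Fermat.Agent.S12.M

open Fermat.Agent.S05 (xc yc)
open Fermat.Agent.S37.Red
open Fermat.Agent.ES (Qb FF GQ galF)
open Fermat.Agent.S15
open Fermat.Agent.S15.A.Loc (EQ)
open Fermat.Agent.S15.A.Pl

noncomputable section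

variable {p : ℕ} [Fact p.Prime] {W : WeierstrassCurve ℤ}

theorem h0_mem_rat (Q : (EQ W).Point) (hQo : addOrderOf Q = p)
    (hQst : ∀ σ : Qb ≃ₐ[ℚ] Qb, ∃ k : ℕ, σ • Q = k • Q) :
    ∃ c : ℚ, S15.A.h0 p Q = algebraMap ℚ Qb c := by
  obtain ⟨c, hc⟩ := prod_yc_mem_rat (Fact.out : p.Prime) Q hQo hQst
  refine ⟨(p : ℚ) ^ 12 * c ^ 4 / (W.Δ : ℚ) ^ (p - 1), ?_⟩
  rw [S15.A.h0, hc, map_div₀, map_mul, map_pow, map_pow, map_pow, map_natCast, map_intCast]

/-- `A.main` for a Galois stable subgroup `⟨Q⟩`. -/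
theorem main_stable (hp2 : p ≠ 2) (hΔ : W.Δ ≠ 0) (Q : (EQ W).Point)
    (hQst : ∀ σ : Qb ≃ₐ[ℚ] Qb, ∃ k : ℕ, σ • Q = k • Q) (hQord : addOrderOf Q = p)
    (h2c₄ : ¬ (2 : ℤ) ∣ W.c₄) :
    ∃ (x : Place Qb (FF p)) (c : ℚ), c ≠ 0 ∧
      Van x (jQ p - algebraMap Qb (FF p) (S15.A.j0 W)) ∧
      Van x (hQ p - algebraMap Qb (FF p) (algebraMap ℚ Qb c)) ∧
      (∀ r : ℕ, r.Prime → r ≠ p → (r : ℤ) ∣ W.Δ → ¬ (r : ℤ) ∣ W.c₄ →
        ∀ A : ValuationSubring Qb, A.LiesOverPrime r →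
          (W.InZeroComponentAt A Q → 1 < A.valuation (algebraMap ℚ Qb c)) ∧
          (¬ W.InZeroComponentAt A Q → A.valuation (algebraMap ℚ Qb c) < 1)) ∧
      ((∃ (r : ℕ) (A : ValuationSubring Qb), r.Prime ∧ r ≠ p ∧ (r : ℤ) ∣ W.Δ ∧ ¬ (r : ℤ) ∣ W.c₄ ∧
          A.LiesOverPrime r ∧ W.InZeroComponentAt A Q) →
        ∀ σ : GQ, arithmeticGalois (modularFunctionFieldFull p) σ • x = x) := by
  obtain ⟨x, hxj, hxh⟩ := S15.A.exists_place hp2 hΔ h2c₄ Q hQord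
  obtain ⟨c, hc⟩ := h0_mem_rat (p := p) Q hQord hQst
  have hh0 : S15.A.h0 p Q ≠ 0 := S15.A.h0_ne_zero hp2 hΔ h2c₄ Q hQord
  have hc0 : c ≠ 0 := by
    rintro rfl
    exact hh0 (by rw [hc, map_zero])
  have hp1 : p - 1 ≠ 0 := by
    have := (Fact.out : p.Prime).two_le
    omega
  have hIn : ∀ r : ℕ, r.Prime → r ≠ p → (r : ℤ) ∣ W.Δ → ¬ (r : ℤ) ∣ W.c₄ →
      ∀ A : ValuationSubring Qb, A.LiesOverPrime r →
        W.InZeroComponentAt A Q → 1 < A.valuation (algebraMap ℚ Qb c) := by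
    intro r hr hrp hrΔ hrc₄ A hA h
    rw [← hc, S15.A.val_h0_of_inZero hp2 hr hrp hΔ hrΔ hrc₄ A hA Q hQord h]
    exact one_lt_pow₀ (S15.A.val_j0 hr hrΔ hrc₄ hΔ A hA).1 hp1
  refine ⟨x, c, hc0, hxj, hc ▸ hxh, ?_, ?_⟩
  · intro r hr hrp hrΔ hrc₄ A hA
    refine ⟨hIn r hr hrp hrΔ hrc₄ A hA, fun h => ?_⟩
    rw [← hc]
    have hAp : A.valuation (p : Qb) = 1 := by
      have h1 : A.valuation (((p : ℤ) : Qb)) ≤ 1 := S15.A.val_int_le_one A (p : ℤ)
      have h2 : ¬ A.valuation (((p : ℤ) : Qb)) < 1 := by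
        rw [S15.A.val_int_lt_one_iff hr A hA]
        intro hd
        have hd' : r ∣ p := by exact_mod_cast hd
        exact hrp ((Nat.prime_dvd_prime_iff_eq hr (Fact.out : p.Prime)).1 hd')
      have h3 : A.valuation (((p : ℤ) : Qb)) = 1 := le_antisymm h1 (not_lt.1 h2)
      simpa using h3
    exact S15.A.val_lt_one_of_place hp2 hh0 hxj hxh A hAp (S15.A.val_j0 hr hrΔ hrc₄ hΔ A hA).1
      (S15.A.val_h0_of_not_inZero hr hrp hΔ hrΔ hrc₄ A hA Q hQord h)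
  · rintro ⟨r, A, hr, hrp, hrΔ, hrc₄, hA, h⟩ σ
    have hja : S15.A.j0 W = algebraMap ℚ Qb ((W.c₄ : ℚ) ^ 3 / (W.Δ : ℚ)) := by
      simp [S15.A.j0]
    refine S15.A.smul_eq_of_val hp2 (a := (W.c₄ : ℚ) ^ 3 / (W.Δ : ℚ)) hc0 (hja ▸ hxj) (hc ▸ hxh) A ?_
      (hIn r hr hrp hrΔ hrc₄ A hA h).le σ
    rw [← hja]
    exact (S15.A.val_j0 hr hrΔ hrc₄ hΔ A hA).1

/-! ### the mirror -/

theorem van_wP_smul_iff (x : Place Qb (FF p)) (f : FF p) :
    Van (C.wP p • x) (C.wP p f) ↔ Van x f := by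
  rw [van_iff_ord, van_iff_ord, Place.ord_smul, EmbeddingLike.map_eq_zero_iff]

theorem gal_smul_wP_smul (σ : GQ) (x : Place Qb (FF p)) :
    arithmeticGalois (modularFunctionFieldFull p) σ • (C.wP p • x) =
      C.wP p • (arithmeticGalois (modularFunctionFieldFull p) σ • x) := by
  refine Fermat.Agent.S24.FF.eq_of_forall_ord_nonneg fun f hf => ?_
  obtain ⟨g, rfl⟩ : ∃ g, f = galF p σ (C.wP p g) := by
    refine ⟨C.wP p (galF p σ⁻¹ f), ?_⟩
    rw [C.wP_wP, ← Fermat.Agent.ES.galF_mul, mul_inv_cancel, Fermat.Agent.ES.galF_one]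
    rfl
  rw [Fermat.Agent.ES.ord_galF, Place.ord_smul] at hf
  have h0 : galF p σ (C.wP p g) = C.wP p (galF p σ g) := C.gal_wP p σ g
  rw [h0, Place.ord_smul, Fermat.Agent.ES.ord_galF]
  exact hf

theorem van_mirror {x : Place Qb (FF p)} {j₀ c : Qb} (hc : c ≠ 0)
    (hj : Van x (jQ p - algebraMap Qb (FF p) j₀)) (hx : Van x (hQ p - algebraMap Qb (FF p) c)) :
    Van (C.wP p • x) (hQ p - algebraMap Qb (FF p) ((p : Qb) ^ 12 / c)) := by
  have h1 : Van x (uQ p - algebraMap Qb (FF p) ((p : Qb) ^ 12 / c)) := (S15.A.over_of_van hc hj hx).2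
  have h2 := (van_wP_smul_iff x _).2 h1
  rwa [map_sub, AlgEquiv.commutes, C.wP_uU] at h2

/-! ### the machine -/

/-- What is used of the S15 machine at level `p`: the statement of `S15.T.key`. -/
def Key (p : ℕ) [Fact p.Prime] : Prop :=
  ∃ e : ℕ, e.Prime ∧ e ∣ p - 1 ∧
    ∀ (x : Place Qb (FF p)),
      (∀ σ : GQ, arithmeticGalois (modularFunctionFieldFull p) σ • x = x) →
      ∀ (a : Qb), Van x (hQ p - algebraMap Qb (FF p) a) →
      ∀ (r : ℕ) (Ar : ValuationSubring Qb) (ℓ : ℕ) (A : ValuationSubring Qb),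
        r.Prime → r ≠ p → e ≠ r → Ar.LiesOverPrime r → Ar.valuation a < 1 →
        ℓ.Prime → ℓ ≠ p → (ℓ = e → 5 ≤ ℓ) → A.LiesOverPrime ℓ → 1 < A.valuation a → False

theorem dual_of_key (hM : Key p) (hp' : p ∉ ({2, 3, 5, 7, 13} : Finset ℕ))
    (hΔ : W.Δ ≠ 0) (Q : (EQ W).Point)
    (hQst : ∀ σ : GQ, ∃ k : ℕ, σ • Q = k • Q) (hQord : addOrderOf Q = p)
    (h2Δ : (2 : ℤ) ∣ W.Δ) (h2c₄ : ¬ (2 : ℤ) ∣ W.c₄)
    (h2 : ∀ A : ValuationSubring Qb, A.LiesOverPrime 2 → W.InZeroComponentAt A Q)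
    (h3Δ : (3 : ℤ) ∣ W.Δ) (h3c₄ : ¬ (3 : ℤ) ∣ W.c₄)
    (h3 : ∀ A : ValuationSubring Qb, A.LiesOverPrime 3 → W.InZeroComponentAt A Q)
    {l : ℕ} (hl : l.Prime) (hlp : l ≠ p) (hlΔ : (l : ℤ) ∣ W.Δ) (hlc₄ : ¬ (l : ℤ) ∣ W.c₄)
    (A : ValuationSubring Qb) (hA : A.LiesOverPrime l) : W.InZeroComponentAt A Q := by
  by_contra hno
  have hp : p.Prime := Fact.out
  have hp2 : p ≠ 2 := by
    rintro rfl
    simp at hp'
  have hp3 : p ≠ 3 := by
    rintro rfl
    simp at hp'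
  obtain ⟨x, c, hc0, hxj, hxh, hloc, hgal⟩ := main_stable hp2 hΔ Q hQst hQord h2c₄
  obtain ⟨A2, hA2⟩ := Fermat.Agent.S54.exists_liesOverPrime 2 Nat.prime_two
  obtain ⟨A3, hA3⟩ := Fermat.Agent.S54.exists_liesOverPrime 3 Nat.prime_three
  have hfix := hgal ⟨2, A2, Nat.prime_two, Ne.symm hp2, by exact_mod_cast h2Δ,
    by exact_mod_cast h2c₄, hA2, h2 A2 hA2⟩
  have hc0' : algebraMap ℚ Qb c ≠ 0 := by
    rw [Ne, map_eq_zero]; exact hc0
  -- the mirror place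
  have hy := van_mirror hc0' hxj hxh
  have hyfix : ∀ σ : GQ, arithmeticGalois (modularFunctionFieldFull p) σ • (C.wP p • x) =
      C.wP p • x := by
    intro σ
    rw [gal_smul_wP_smul, hfix σ]
  have hnat : ∀ B : ValuationSubring Qb, B.valuation ((p : Qb) ^ 12) ≤ 1 := by
    intro B
    rw [map_pow]
    have := S15.A.val_int_le_one B (p : ℤ)
    rw [Int.cast_natCast] at this
    exact pow_le_one₀ zero_le this
  have hsmall : ∀ B : ValuationSubring Qb, 1 < B.valuation (algebraMap ℚ Qb c) →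
      B.valuation ((p : Qb) ^ 12 / algebraMap ℚ Qb c) < 1 := by
    intro B hB
    rw [map_div₀, div_lt_one₀ (lt_trans zero_lt_one hB)]
    exact lt_of_le_of_lt (hnat B) hB
  have hv2 : A2.valuation ((p : Qb) ^ 12 / algebraMap ℚ Qb c) < 1 :=
    hsmall A2 ((hloc 2 Nat.prime_two (Ne.symm hp2) (by exact_mod_cast h2Δ)
      (by exact_mod_cast h2c₄) A2 hA2).1 (h2 A2 hA2))
  have hv3 : A3.valuation ((p : Qb) ^ 12 / algebraMap ℚ Qb c) < 1 :=
    hsmall A3 ((hloc 3 Nat.prime_three (Ne.symm hp3) (by exact_mod_cast h3Δ)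
      (by exact_mod_cast h3c₄) A3 hA3).1 (h3 A3 hA3))
  have hvl : 1 < A.valuation ((p : Qb) ^ 12 / algebraMap ℚ Qb c) := by
    have h1 := (hloc l hl hlp hlΔ hlc₄ A hA).2 hno
    have hAp : A.valuation (p : Qb) = 1 := by
      have h1 : A.valuation (((p : ℤ) : Qb)) ≤ 1 := S15.A.val_int_le_one A (p : ℤ)
      have h2 : ¬ A.valuation (((p : ℤ) : Qb)) < 1 := by
        rw [S15.A.val_int_lt_one_iff hl A hA]
        intro hd
        have hd' : l ∣ p := by exact_mod_cast hd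
        exact hlp ((Nat.prime_dvd_prime_iff_eq hl hp).1 hd')
      have h3 : A.valuation (((p : ℤ) : Qb)) = 1 := le_antisymm h1 (not_lt.1 h2)
      simpa using h3
    have h0 : 0 < A.valuation (algebraMap ℚ Qb c) := zero_lt_iff.2 ((Valuation.ne_zero_iff _).2 hc0')
    rw [map_div₀, map_pow, hAp, one_pow, one_div]
    exact (one_lt_inv₀ h0).2 h1
  have hl2 : l ≠ 2 := by
    rintro rfl
    exact hno (h2 A hA)
  have hl3 : l ≠ 3 := by
    rintro rfl
    exact hno (h3 A hA)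
  have hl5 : 5 ≤ l := by
    have h2 := hl.two_le
    by_contra h
    have h4 : l = 4 := by omega
    rw [h4] at hl
    exact absurd hl (by norm_num)
  obtain ⟨e, he, -, hkey⟩ := hM
  by_cases he2 : e = 2
  · exact hkey (C.wP p • x) hyfix _ hy 3 A3 l A Nat.prime_three (Ne.symm hp3) (by omega) hA3 hv3
      hl hlp (fun _ => hl5) hA hvl
  · exact hkey (C.wP p • x) hyfix _ hy 2 A2 l A Nat.prime_two (Ne.symm hp2) he2 hA2 hv2
      hl hlp (fun _ => hl5) hA hvl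

end

end Fermat.Agent.S12.M
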