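import Fermat.Agent.S15.A.Loc

/-!
# S12 / M / Rat : `∏_{0<k<p} yc (k • Q) ∈ ℚ` when the subgroup `⟨Q⟩` is only Galois *stable*
-/

set_option autoImplicit false

open WeierstrassCurve WeierstrassCurve.Affine

namespace Fermat.Agent.S12.M

open Fermat.Agent.S05 (xc yc)
open Fermat.Agent.S15.A.Loc (EQ Qb)

/-- multiplication by `m` (prime to `p`) permutes the nonzero multiples of a point killed by `p`. -/
theorem prod_perm {G M : Type*} [AddCommGroup G] [CommMonoid M] {p : ℕ} (hp : p.Prime) (f : G → M)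
    (T : G) (hT : p • T = 0) {m : ℕ} (hm : ¬ p ∣ m) :
    ∏ k ∈ Finset.Ico 1 p, f (k • (m • T)) = ∏ k ∈ Finset.Ico 1 p, f (k • T) := by
  have hmaps : Set.MapsTo (fun k : ℕ => (k * m) % p) (Finset.Ico 1 p : Finset ℕ)
      (Finset.Ico 1 p : Finset ℕ) := by
    intro k hk
    have hk' : 1 ≤ k ∧ k < p := by simpa using hk
    have h1 : (k * m) % p < p := Nat.mod_lt _ hp.pos
    have h2 : (k * m) % p ≠ 0 := by
      intro h
      rcases (hp.dvd_mul).1 (Nat.dvd_of_mod_eq_zero h) with h | h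
      · exact absurd (Nat.le_of_dvd (by omega) h) (by omega)
      · exact hm h
    have : 1 ≤ (k * m) % p ∧ (k * m) % p < p := ⟨by omega, h1⟩
    simpa using this
  have hinj : Set.InjOn (fun k : ℕ => (k * m) % p) (Finset.Ico 1 p : Finset ℕ) := by
    intro k hk k' hk' h
    have hk1 : 1 ≤ k ∧ k < p := by simpa using hk
    have hk2 : 1 ≤ k' ∧ k' < p := by simpa using hk'
    have h1 : k * m ≡ k' * m [MOD p] := h
    have hcop : Nat.gcd p m = 1 := (Nat.Prime.coprime_iff_not_dvd hp).2 hm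
    have h2 : k ≡ k' [MOD p] := Nat.ModEq.cancel_right_of_coprime hcop h1
    exact Nat.ModEq.eq_of_lt_of_lt h2 hk1.2 hk2.2
  refine Finset.prod_nbij (fun k : ℕ => (k * m) % p) hmaps hinj
    (Finset.surjOn_of_injOn_of_card_le _ hmaps hinj le_rfl) ?_
  intro k _
  have h1 : ((k * m) % p) • T = (k * m) • T := by
    conv_rhs => rw [← Nat.mod_add_div (k * m) p]
    rw [add_nsmul, mul_nsmul, hT, smul_zero, add_zero]
  rw [h1, mul_nsmul']

variable {W : WeierstrassCurve ℤ}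

/-- Galois: `yc (σ • P) = σ (yc P)`; the product over the nonzero points of a Galois stable subgroup
of prime order is rational. -/
theorem prod_yc_mem_rat {p : ℕ} (hp : p.Prime) (Q : (EQ W).Point) (hQo : addOrderOf Q = p)
    (hQst : ∀ σ : Qb ≃ₐ[ℚ] Qb, ∃ k : ℕ, σ • Q = k • Q) :
    ∃ c : ℚ, ∏ k ∈ Finset.Ico 1 p, yc (k • Q) = algebraMap ℚ Qb c := by
  have hpQ : p • Q = 0 := hQo ▸ addOrderOf_nsmul_eq_zero Q
  have hQ0 : Q ≠ 0 := by
    intro h
    rw [h, addOrderOf_zero] at hQo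
    exact hp.one_lt.ne hQo
  have hfix : ∀ σ : Qb ≃ₐ[ℚ] Qb,
      σ (∏ k ∈ Finset.Ico 1 p, yc (k • Q)) = ∏ k ∈ Finset.Ico 1 p, yc (k • Q) := by
    intro σ
    obtain ⟨m, hm⟩ := hQst σ
    have hpm : ¬ p ∣ m := by
      rintro ⟨t, rfl⟩
      rw [mul_nsmul, hpQ, nsmul_zero] at hm
      apply hQ0
      have h2 : σ⁻¹ • (σ • Q) = σ⁻¹ • (0 : (EQ W).Point) := by rw [hm]
      rw [inv_smul_smul] at h2
      exact h2.trans (map_zero (DistribSMul.toAddMonoidHom (EQ W).Point σ⁻¹))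
    rw [map_prod, ← prod_perm hp (fun P : (EQ W).Point => yc P) Q hpQ hpm]
    refine Finset.prod_congr rfl (fun k _ => ?_)
    have h1 : σ • (k • Q) = k • (σ • Q) :=
      map_nsmul (DistribSMul.toAddMonoidHom (EQ W).Point σ) k Q
    rw [← Fermat.Agent.S15.A.Loc.EQ_yc_smul, h1, hm]
  have hac : IsAlgClosure ℚ Qb :=
    (inferInstance : @IsAlgClosure ℚ (AlgebraicClosure ℚ) _ _ (AlgebraicClosure.instAlgebra ℚ) _)
  have hgal : IsGalois ℚ Qb := IsAlgClosure.isGalois ℚ Qb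
  obtain ⟨c, hc⟩ := (InfiniteGalois.mem_range_algebraMap_iff_fixed _).mpr hfix
  exact ⟨c, hc.symm⟩

end Fermat.Agent.S12.M
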